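import Mathlib
import Fermat.Prelude.Def_AlgebraicCurve_CanonicalDivisor

/-!
# Function fields of one variable: places over the points of the `x`-line (definitions)
-/

set_option autoImplicit false

namespace FAFF

open AlgebraicCurve

variable {K F : Type*} [Field K] [Field F] [Algebra K F]

/-- The places of `F/K` at which `x - a` vanishes. -/
def Over (x : F) (a : K) : Set (Place K F) := {v | 0 < v.ord (x - algebraMap K F a)}

/-- The places of `F/K` at which `x` has a pole. -/
def OverInf (K : Type*) {F : Type*} [Field K] [Field F] [Algebra K F] (x : F) :
    Set (Place K F) := {v | v.ord x < 0}

end FAFF
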