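import Fermat.Agent.FF.Place

/-!
# Exchange lemma: `F` is finite over `K(y)` for every transcendental `y`
-/

set_option autoImplicit false

namespace FAFF

open AlgebraicCurve IntermediateField

variable {K F : Type*} [Field K] [Field F] [Algebra K F]

open scoped IntermediateField.algebraAdjoinAdjoin in
theorem essFiniteType_of_finiteDimensional (x : F) [FiniteDimensional K⟮x⟯ F] :
    Algebra.EssFiniteType K F := by
  have h0 : Algebra.FiniteType K (Algebra.adjoin K ({x} : Set F)) :=
    .adjoin_of_finite (Set.finite_singleton x)
  have h1 : Algebra.EssFiniteType (Algebra.adjoin K ({x} : Set F)) K⟮x⟯ :=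
    .of_isLocalization _ (nonZeroDivisors _)
  have h2 : Algebra.EssFiniteType K K⟮x⟯ := .comp _ (Algebra.adjoin K ({x} : Set F)) _
  exact .comp K K⟮x⟯ F

open scoped IntermediateField.algebraAdjoinAdjoin in
/-- (EL) the exchange lemma. -/
theorem finiteDimensional_adjoin_of_transcendental (x : F) [FiniteDimensional K⟮x⟯ F] (y : F)
    (hy : Transcendental K y) : FiniteDimensional K⟮y⟯ F := by
  have alg1 : Algebra.IsAlgebraic (Algebra.adjoin K ({x} : Set F)) F :=
    Algebra.IsAlgebraic.trans (Algebra.adjoin K ({x} : Set F)) K⟮x⟯ F
  have h1 : Algebra.trdeg K F ≤ 1 := by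
    simpa using Algebra.IsAlgebraic.trdeg_le_cardinalMk K ({x} : Set F)
  have ind : AlgebraicIndependent K (fun _ : Unit => y) :=
    algebraicIndependent_unique_type_iff.2 hy
  have tb : IsTranscendenceBasis K (fun _ : Unit => y) :=
    ind.isTranscendenceBasis_of_lift_trdeg_le_of_finite (by simpa using h1)
  have alg2 := tb.isAlgebraic_field
  rw [Set.range_const] at alg2
  have e1 : Algebra.EssFiniteType K F := essFiniteType_of_finiteDimensional x
  have e2 : Algebra.EssFiniteType K⟮y⟯ F := Algebra.EssFiniteType.of_comp K K⟮y⟯ F
  obtain ⟨s, hs⟩ := IntermediateField.fg_top (F := K⟮y⟯) (E := F)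
  have h3 := IntermediateField.finiteDimensional_adjoin (K := K⟮y⟯) (S := (s : Set F))
    (fun z _ => (alg2.isAlgebraic z).isIntegral)
  rw [hs] at h3
  exact (IntermediateField.topEquiv (F := K⟮y⟯) (E := F)).toLinearEquiv.finiteDimensional

/-- An element of `F` which is not a constant is transcendental (`K` algebraically closed). -/
theorem transcendental_of_notMem_range [IsAlgClosed K] {y : F}
    (hy : y ∉ Set.range (algebraMap K F)) : Transcendental K y := by
  intro halg
  apply hy
  have hint := halg.isIntegral
  have hdeg := IsAlgClosed.degree_eq_one_of_irreducible K (minpoly.irreducible hint)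
  exact minpoly.mem_range_of_degree_eq_one K y hdeg

end FAFF
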