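import Fermat.Agent.FF.Defs

/-!
# Generalities on places; construction of places from order functions
-/

set_option autoImplicit false

namespace FAFF

open AlgebraicCurve

variable {K F : Type*} [Field K] [Field F] [Algebra K F]

/-! ### General lemmas on `Place.ord` -/

theorem exists_irreducible (v : Place K F) : ∃ π : v.toValuationSubring, Irreducible π :=
  IsDiscreteValuationRing.exists_irreducible v.toValuationSubring

theorem coe_ne_zero_of_irreducible (v : Place K F) {π : v.toValuationSubring}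
    (hπ : Irreducible π) : (π : F) ≠ 0 := by
  simpa [ne_eq, ZeroMemClass.coe_eq_zero] using hπ.ne_zero

/-- (G1) -/
theorem mem_iff_ord_nonneg (v : Place K F) {f : F} (hf : f ≠ 0) :
    f ∈ v.toValuationSubring ↔ 0 ≤ v.ord f := by
  obtain ⟨π, hπ⟩ := exists_irreducible v
  obtain ⟨u, hu⟩ := v.exists_unit_mul_zpow hf hπ
  have hπ0 := coe_ne_zero_of_irreducible v hπ
  constructor
  · intro hmem
    by_contra hneg
    push Not at hneg
    obtain ⟨m, hm⟩ : ∃ m : ℕ, v.ord f = -(m : ℤ) := ⟨(-v.ord f).toNat, by omega⟩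
    have hm0 : m ≠ 0 := by rintro rfl; simp at hm; omega
    -- `π ^ m * f = u`
    have h1 : ((π ^ m * ⟨f, hmem⟩ : v.toValuationSubring) : F) = (u : v.toValuationSubring) := by
      push_cast
      rw [hu] 
      conv_lhs => rw [hm]
      rw [zpow_neg, zpow_natCast]
      field_simp
    have h2 : π ^ m * ⟨f, hmem⟩ = (u : v.toValuationSubring) := Subtype.ext h1
    have h3 : IsUnit (π ^ m) := isUnit_of_mul_isUnit_left (h2 ▸ u.isUnit)
    exact hπ.not_isUnit ((isUnit_pow_iff hm0).1 h3)
  · intro hnn
    obtain ⟨m, hm⟩ : ∃ m : ℕ, v.ord f = (m : ℤ) := ⟨(v.ord f).toNat, by omega⟩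
    rw [hu, hm, zpow_natCast]
    exact v.toValuationSubring.mul_mem _ _ (u : v.toValuationSubring).2
      (v.toValuationSubring.pow_mem π.2 m)

theorem ord_neg (v : Place K F) (f : F) : v.ord (-f) = v.ord f := by
  simp [Place.ord]

theorem ord_algebraMap (v : Place K F) (a : K) : v.ord (algebraMap K F a) = 0 := by
  rcases eq_or_ne a 0 with rfl | ha
  · simp
  have h0 : algebraMap K F a ≠ 0 := by simpa using ha
  have h1 : 0 ≤ v.ord (algebraMap K F a) := (mem_iff_ord_nonneg v h0).1 (v.algebraMap_mem' a)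
  have h2 : 0 ≤ v.ord (algebraMap K F a)⁻¹ := by
    rw [← map_inv₀]
    exact (mem_iff_ord_nonneg v (by simpa using ha)).1 (v.algebraMap_mem' a⁻¹)
  rw [v.ord_inv] at h2
  omega

/-- (G3) -/
theorem min_ord_le_ord_add (v : Place K F) {f g : F} (hf : f ≠ 0) (hg : g ≠ 0)
    (hfg : f + g ≠ 0) : min (v.ord f) (v.ord g) ≤ v.ord (f + g) := by
  wlog h : v.ord f ≤ v.ord g generalizing f g
  · rw [min_comm, add_comm]
    exact this hg hf (by rwa [add_comm]) (by omega)
  rw [min_eq_left h]
  -- `(f + g) / f = 1 + g / f` is integral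
  have h1 : g / f ∈ v.toValuationSubring := by
    rw [mem_iff_ord_nonneg v (div_ne_zero hg hf), div_eq_mul_inv,
      v.ord_mul hg (inv_ne_zero hf), v.ord_inv]
    omega
  have h2 : (f + g) / f ∈ v.toValuationSubring := by
    have : (f + g) / f = 1 + g / f := by field_simp
    rw [this]
    exact v.toValuationSubring.add_mem _ _ v.toValuationSubring.one_mem h1
  rw [mem_iff_ord_nonneg v (div_ne_zero hfg hf), div_eq_mul_inv,
    v.ord_mul hfg (inv_ne_zero hf), v.ord_inv] at h2
  omega

theorem ord_add_eq_of_lt (v : Place K F) {f g : F} (hf : f ≠ 0) (hg : g ≠ 0)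
    (h : v.ord f < v.ord g) : v.ord (f + g) = v.ord f := by
  have hfg : f + g ≠ 0 := by
    intro h0
    have : g = -f := by linear_combination h0
    rw [this, ord_neg] at h
    omega
  have h1 := min_ord_le_ord_add v hf hg hfg
  have h2 : min (v.ord (f + g)) (v.ord (-g)) ≤ v.ord (f + g + -g) :=
    min_ord_le_ord_add v hfg (neg_ne_zero.2 hg) (by simpa using hf)
  rw [ord_neg] at h2
  simp only [add_neg_cancel_right] at h2
  rcases min_le_iff.1 h2 with h3 | h3
  · rw [min_eq_left h.le] at h1; omega
  · omega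

/-- (G2) a place is determined by its order function. -/
theorem place_ext {v w : Place K F} (h : ∀ f, f ≠ 0 → 0 ≤ v.ord f → 0 ≤ w.ord f) : v = w := by
  have hle : v.toValuationSubring ≤ w.toValuationSubring := by
    intro f hf
    rcases eq_or_ne f 0 with rfl | hf0
    · exact w.toValuationSubring.zero_mem
    · exact (mem_iff_ord_nonneg w hf0).2 (h f hf0 ((mem_iff_ord_nonneg v hf0).1 hf))
  apply Place.ext
  exact ValuationSubring.eq_of_le_of_ne_top _ hle w.ne_top'

/-! ### Places from order functions -/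

section OrderFunction

variable (w : F → ℤ)
  (hmul : ∀ f g, f ≠ 0 → g ≠ 0 → w (f * g) = w f + w g)
  (hadd : ∀ f g, f ≠ 0 → g ≠ 0 → f + g ≠ 0 → min (w f) (w g) ≤ w (f + g))

include hmul in
theorem ordFun_one : w 1 = 0 := by
  have := hmul 1 1 one_ne_zero one_ne_zero
  rw [mul_one] at this
  omega

include hmul in
theorem ordFun_neg_one : w (-1) = 0 := by
  have := hmul (-1) (-1) (by simp) (by simp)
  rw [neg_mul_neg, mul_one, ordFun_one w hmul] at this
  omega

include hmul in
theorem ordFun_neg {f : F} (hf : f ≠ 0) : w (-f) = w f := by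
  have := hmul (-1) f (by simp) hf
  rw [ordFun_neg_one w hmul] at this
  simpa using this

include hmul in
theorem ordFun_inv {f : F} (hf : f ≠ 0) : w f⁻¹ = -w f := by
  have := hmul f f⁻¹ hf (inv_ne_zero hf)
  rw [mul_inv_cancel₀ hf, ordFun_one w hmul] at this
  omega

include hmul in
theorem ordFun_pow {f : F} (hf : f ≠ 0) (n : ℕ) : w (f ^ n) = n * w f := by
  induction n with
  | zero => simp [ordFun_one w hmul]
  | succ n ih =>
    rw [pow_succ, hmul _ _ (pow_ne_zero n hf) hf, ih]
    push_cast; ring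

include hmul in
theorem ordFun_zpow {f : F} (hf : f ≠ 0) (n : ℤ) : w (f ^ n) = n * w f := by
  obtain ⟨m, rfl | rfl⟩ := n.eq_nat_or_neg
  · rw [zpow_natCast, ordFun_pow w hmul hf]
  · rw [zpow_neg, zpow_natCast, ordFun_inv w hmul (pow_ne_zero m hf), ordFun_pow w hmul hf]
    ring

/-- The valuation subring of an order function. -/
def ordFunSubring : ValuationSubring F where
  carrier := {f | f = 0 ∨ 0 ≤ w f}
  mul_mem' := by
    rintro f g (rfl | hf) (rfl | hg)
    · simp
    · simp
    · simp
    · by_cases hf0 : f = 0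
      · simp [hf0]
      by_cases hg0 : g = 0
      · simp [hg0]
      right
      rw [hmul f g hf0 hg0]
      omega
  one_mem' := Or.inr (by rw [ordFun_one w hmul])
  add_mem' := by
    rintro f g hf hg
    by_cases hf0 : f = 0
    · simpa [hf0] using hg
    by_cases hg0 : g = 0
    · simpa [hg0] using hf
    by_cases hfg : f + g = 0
    · exact Or.inl hfg
    right
    have := hadd f g hf0 hg0 hfg
    have hf' := hf.resolve_left hf0
    have hg' := hg.resolve_left hg0
    exact le_trans (le_min hf' hg') this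
  zero_mem' := Or.inl rfl
  neg_mem' := by
    rintro f hf
    by_cases hf0 : f = 0
    · simp [hf0]
    right
    rw [ordFun_neg w hmul hf0]
    exact hf.resolve_left hf0
  mem_or_inv_mem' := by
    intro f
    by_cases hf0 : f = 0
    · exact Or.inl (Or.inl hf0)
    rcases le_total 0 (w f) with h | h
    · exact Or.inl (Or.inr h)
    · right; right
      rw [ordFun_inv w hmul hf0]
      omega

theorem mem_ordFunSubring {f : F} :
    f ∈ ordFunSubring w hmul hadd ↔ f = 0 ∨ 0 ≤ w f := Iff.rfl

/-- In the valuation subring of an order function, divisibility is governed by `w`. -/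
theorem ordFunSubring_dvd {a b : ordFunSubring w hmul hadd} (ha : a ≠ 0)
    (h : w (a : F) ≤ w (b : F)) : a ∣ b := by
  have ha0 : (a : F) ≠ 0 := by simpa using ha
  by_cases hb : b = 0
  · simp [hb]
  have hb0 : (b : F) ≠ 0 := by simpa using hb
  refine ⟨⟨(b : F) / a, Or.inr ?_⟩, ?_⟩
  · rw [div_eq_mul_inv, hmul _ _ hb0 (inv_ne_zero ha0), ordFun_inv w hmul ha0]
    omega
  · apply Subtype.ext
    push_cast
    field_simp

theorem ordFunSubring_isPrincipalIdealRing :
    IsPrincipalIdealRing (ordFunSubring w hmul hadd) := by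
  classical
  refine ⟨fun I => ?_⟩
  by_cases hI : I = ⊥
  · rw [hI]; exact bot_isPrincipal
  -- pick an element of minimal order
  obtain ⟨a0, ha0I, ha00⟩ := Submodule.exists_mem_ne_zero_of_ne_bot hI
  let S : Set ℕ := {n | ∃ a ∈ I, a ≠ 0 ∧ w (a : F) = n}
  have hS : S.Nonempty := by
    have h0 : 0 ≤ w (a0 : F) := a0.2.resolve_left (by simpa using ha00)
    exact ⟨(w (a0 : F)).toNat, a0, ha0I, ha00, by omega⟩
  obtain ⟨a, haI, ha0, ha⟩ := Nat.sInf_mem hS
  refine ⟨⟨a, le_antisymm ?_ ?_⟩⟩
  · intro b hb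
    rw [Submodule.mem_span_singleton]
    by_cases hb0 : b = 0
    · exact ⟨0, by simp [hb0]⟩
    have hbn : 0 ≤ w (b : F) := b.2.resolve_left (by simpa using hb0)
    have hmem : (w (b : F)).toNat ∈ S := ⟨b, hb, hb0, by omega⟩
    have hle := Nat.sInf_le hmem
    obtain ⟨c, hc⟩ := ordFunSubring_dvd w hmul hadd ha0 (b := b) (by omega)
    exact ⟨c, by rw [hc, smul_eq_mul, mul_comm]⟩
  · rw [Submodule.span_singleton_le_iff_mem]
    exact haI

end OrderFunction

/-- (T7c) constructor of places: a nontrivial "order function" `w : F → ℤ` (junk at `0`),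
trivial on `K`, comes from a place, up to a positive integer factor `c`. -/
theorem exists_place_of_ord (w : F → ℤ)
    (hmul : ∀ f g, f ≠ 0 → g ≠ 0 → w (f * g) = w f + w g)
    (hadd : ∀ f g, f ≠ 0 → g ≠ 0 → f + g ≠ 0 → min (w f) (w g) ≤ w (f + g))
    (hK : ∀ a : K, a ≠ 0 → w (algebraMap K F a) = 0)
    (hnt : ∃ f, f ≠ 0 ∧ w f ≠ 0) :
    ∃ (v : Place K F) (c : ℤ), 0 < c ∧ ∀ f, f ≠ 0 → w f = c * v.ord f := by
  classical
  -- the place
  obtain ⟨f0, hf0, hwf0⟩ := hnt
  let v : Place K F :=
    { toValuationSubring := ordFunSubring w hmul hadd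
      algebraMap_mem' := fun a => by
        by_cases ha : a = 0
        · left; simp [ha]
        · right; rw [hK a ha]
      ne_top' := by
        intro htop
        have h1 : f0 ∈ ordFunSubring w hmul hadd := htop ▸ ValuationSubring.mem_top f0
        have h2 : f0⁻¹ ∈ ordFunSubring w hmul hadd := htop ▸ ValuationSubring.mem_top f0⁻¹
        have h1' := h1.resolve_left hf0
        have h2' := h2.resolve_left (inv_ne_zero hf0)
        rw [ordFun_inv w hmul hf0] at h2'
        omega
      isPrincipalIdealRing' := ordFunSubring_isPrincipalIdealRing w hmul hadd }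
  obtain ⟨π, hπ⟩ := exists_irreducible v
  have hπ0 := coe_ne_zero_of_irreducible v hπ
  have hunit : ∀ u : v.toValuationSubringˣ, w ((u : v.toValuationSubring) : F) = 0 := by
    intro u
    have hu0 : ((u : v.toValuationSubring) : F) ≠ 0 := by simp
    have h1 : 0 ≤ w ((u : v.toValuationSubring) : F) :=
      ((u : v.toValuationSubring).2 : _ ∨ _).resolve_left hu0
    have hinv : (((u⁻¹ : v.toValuationSubringˣ) : v.toValuationSubring) : F)
        = ((u : v.toValuationSubring) : F)⁻¹ := by
      have : ((u : v.toValuationSubring) : F) * (((u⁻¹ : v.toValuationSubringˣ) :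
          v.toValuationSubring) : F) = 1 := by
        have h := congrArg (Subtype.val) (u.mul_inv)
        exact h
      exact eq_inv_of_mul_eq_one_right this
    have h2 : 0 ≤ w (((u⁻¹ : v.toValuationSubringˣ) : v.toValuationSubring) : F) :=
      (((u⁻¹ : v.toValuationSubringˣ) : v.toValuationSubring).2 : _ ∨ _).resolve_left (by simp)
    rw [hinv, ordFun_inv w hmul hu0] at h2
    omega
  have hformula : ∀ f, f ≠ 0 → w f = w (π : F) * v.ord f := by
    intro f hf
    obtain ⟨u, hu⟩ := v.exists_unit_mul_zpow hf hπ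
    conv_lhs => rw [hu]
    rw [hmul _ _ (by simp) (zpow_ne_zero _ hπ0), hunit u, ordFun_zpow w hmul hπ0]
    ring
  refine ⟨v, w (π : F), ?_, hformula⟩
  have h1 : 0 ≤ w (π : F) := (π.2 : _ ∨ _).resolve_left hπ0
  rcases h1.lt_or_eq with h | h
  · exact h
  · exfalso
    apply hwf0
    rw [hformula f0 hf0, ← h, zero_mul]

end FAFF
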