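import Fermat.Agent.FF.Exchange

/-!
# Residue fields of places are trivial (`K` algebraically closed)
-/

set_option autoImplicit false

namespace FAFF

open AlgebraicCurve IntermediateField Polynomial

variable {K F : Type*} [Field K] [Field F] [Algebra K F]

/-- If `y - c` is a unit at `v` for all constants `c`, so is `P(y)` for all `P ≠ 0`. -/
theorem ord_aeval_eq_zero [IsAlgClosed K] (v : Place K F) (y : F)
    (h : ∀ c : K, v.ord (y - algebraMap K F c) = 0) (hy : Transcendental K y) :
    ∀ (n : ℕ) (P : K[X]), P.natDegree = n → P ≠ 0 → v.ord (aeval y P) = 0 := by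
  intro n
  induction n with
  | zero =>
    intro P hP _
    rw [natDegree_eq_zero] at hP
    obtain ⟨c, rfl⟩ := hP
    rw [aeval_C]
    exact ord_algebraMap v c
  | succ n ih =>
    intro P hP hP0
    have hdeg : P.degree ≠ 0 := by
      intro h0
      have h1 : P.natDegree = 0 := natDegree_eq_zero_iff_degree_le_zero.2 h0.le
      omega
    obtain ⟨a, ha⟩ := IsAlgClosed.exists_root P hdeg
    obtain ⟨Q, rfl⟩ := dvd_iff_isRoot.2 ha
    have hQ0 : Q ≠ 0 := right_ne_zero_of_mul hP0
    have hQn : Q.natDegree = n := by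
      rw [natDegree_mul (X_sub_C_ne_zero a) hQ0, natDegree_X_sub_C] at hP
      omega
    have h1 : aeval y (X - C a) = y - algebraMap K F a := by simp
    have h2 : aeval y (X - C a) ≠ 0 := fun h0 => X_sub_C_ne_zero a (transcendental_iff.1 hy _ h0)
    have h3 : aeval y Q ≠ 0 := fun h0 => hQ0 (transcendental_iff.1 hy _ h0)
    rw [map_mul, v.ord_mul h2 h3, h1, h a, ih Q hQn hQ0]
    rfl

/-- (T2') every element of the valuation ring of a place is congruent to a constant. -/
theorem exists_const_sub [IsAlgClosed K] (x : F) [FiniteDimensional K⟮x⟯ F] (v : Place K F)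
    {y : F} (hyv : y ∈ v.toValuationSubring) :
    ∃ c : K, y = algebraMap K F c ∨ 0 < v.ord (y - algebraMap K F c) := by
  by_cases hyK : y ∈ Set.range (algebraMap K F)
  · obtain ⟨c, rfl⟩ := hyK
    exact ⟨c, Or.inl rfl⟩
  have hy : Transcendental K y := transcendental_of_notMem_range hyK
  by_contra hcon
  push Not at hcon
  have hne : ∀ c : K, y - algebraMap K F c ≠ 0 := fun c => sub_ne_zero.2 (hcon c).1
  have h0 : ∀ c : K, v.ord (y - algebraMap K F c) = 0 := by
    intro c
    have h1 : 0 ≤ v.ord (y - algebraMap K F c) :=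
      (mem_iff_ord_nonneg v (hne c)).1
        (v.toValuationSubring.sub_mem hyv (v.algebraMap_mem' c))
    have := (hcon c).2
    omega
  have hpol : ∀ P : K[X], P ≠ 0 → v.ord (aeval y P) = 0 := fun P hP =>
    ord_aeval_eq_zero v y h0 hy _ P rfl hP
  -- `K(y) ⊆ O_v`
  have hsub : ∀ r : K⟮y⟯, (r : F) ∈ v.toValuationSubring := by
    rintro ⟨r, hr⟩
    obtain ⟨P, Q, rfl⟩ := (IntermediateField.mem_adjoin_simple_iff K r).1 hr
    show aeval y P / aeval y Q ∈ v.toValuationSubring
    by_cases hP : P = 0
    · simp [hP, v.toValuationSubring.zero_mem]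
    by_cases hQ : Q = 0
    · simp [hQ, v.toValuationSubring.zero_mem]
    have hP' : aeval y P ≠ 0 := fun h0 => hP (transcendental_iff.1 hy _ h0)
    have hQ' : aeval y Q ≠ 0 := fun h0 => hQ (transcendental_iff.1 hy _ h0)
    rw [mem_iff_ord_nonneg v (div_ne_zero hP' hQ'), div_eq_mul_inv,
      v.ord_mul hP' (inv_ne_zero hQ'), v.ord_inv, hpol P hP, hpol Q hQ]
    simp
  have hfin : FiniteDimensional K⟮y⟯ F := finiteDimensional_adjoin_of_transcendental x y hy
  let φ : K⟮y⟯ →+* v.toValuationSubring :=
    (algebraMap K⟮y⟯ F).codRestrict v.toValuationSubring.toSubring hsub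
  let _a : Algebra K⟮y⟯ v.toValuationSubring := φ.toAlgebra
  have _t : IsScalarTower K⟮y⟯ v.toValuationSubring F := IsScalarTower.of_algebraMap_eq fun _ => rfl
  apply v.ne_top'
  rw [eq_top_iff]
  intro z _
  have hz : IsIntegral K⟮y⟯ z := Algebra.IsIntegral.isIntegral z
  have hz' : IsIntegral v.toValuationSubring z := hz.tower_top
  obtain ⟨w, hw⟩ := IsIntegrallyClosed.isIntegral_iff.1 hz'
  rw [← hw]
  exact w.2

/-- (T1e) every place lies over exactly one point of the projective `x`-line. -/
theorem mem_overInf_or_exists_mem_over [IsAlgClosed K] [CharZero K] (x : F)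
    (hx : Transcendental K x) [FiniteDimensional K⟮x⟯ F] (v : Place K F) :
    v ∈ OverInf K x ∨ ∃ a : K, v ∈ Over x a := by
  by_cases h : v.ord x < 0
  · exact Or.inl h
  right
  have hx0 : x ≠ 0 := fun h0 => hx (h0 ▸ isAlgebraic_zero)
  have hmem : x ∈ v.toValuationSubring := (mem_iff_ord_nonneg v hx0).2 (by omega)
  obtain ⟨c, hc | hc⟩ := exists_const_sub x v hmem
  · exact absurd (hc ▸ isAlgebraic_algebraMap c) hx
  · exact ⟨c, hc⟩

/-- (T2) -/
theorem deg_eq_one [IsAlgClosed K] [CharZero K] (x : F) (hx : Transcendental K x)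
    [FiniteDimensional K⟮x⟯ F] (v : Place K F) : v.deg = 1 := by
  have hsurj : Function.Surjective (algebraMap K v.ResidueField) := by
    intro r
    obtain ⟨y, rfl⟩ := IsLocalRing.residue_surjective r
    obtain ⟨c, hc | hc⟩ := exists_const_sub x v y.2
    · refine ⟨c, ?_⟩
      have : y = algebraMap K v.toValuationSubring c := Subtype.ext hc
      rw [this]; rfl
    · refine ⟨c, ?_⟩
      have h1 : algebraMap K v.ResidueField c
          = IsLocalRing.residue _ (algebraMap K v.toValuationSubring c) := rfl
      rw [h1, eq_comm, ← sub_eq_zero, ← map_sub, IsLocalRing.residue_eq_zero_iff,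
        IsLocalRing.mem_maximalIdeal, mem_nonunits_iff]
      intro hu
      have h2 := v.ord_coe_unit hu.unit
      rw [IsUnit.unit_spec] at h2
      have h3 : ((y - algebraMap K v.toValuationSubring c : v.toValuationSubring) : F)
          = (y : F) - algebraMap K F c := rfl
      rw [h3] at h2
      omega
  have hbij : Function.Bijective (algebraMap K v.ResidueField) :=
    ⟨(algebraMap K v.ResidueField).injective, hsurj⟩
  show Module.finrank K v.ResidueField = 1
  rw [← Module.finrank_self K]
  exact ((AlgEquiv.ofBijective (Algebra.ofId K v.ResidueField) hbij).toLinearEquiv.finrank_eq).symm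

end FAFF
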